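import Fermat.Agent.GenusTheory.Characters
import Fermat.Agent.GenusPrimes.Values
import Mathlib.NumberTheory.LSeries.PrimesInAP

/-!
# Half of the combinations of characters belong to forms

A unit modulo `8 D` is congruent modulo `D` to a value of some form exactly when its symbol
`(D / ·)` is `1`, by Dirichlet's theorem, and the genus of the form is determined by the assigned
characters of the unit. So the genera are half as many as the combinations of characters.
-/

set_option autoImplicit false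

noncomputable section

namespace FA.GenusTheory

open FA.GaussComposition FA.GaussDuplication

variable {D : ℤ}

/-- The least positive residue of a unit. -/
abbrev res (u : Res D) : ℕ := (u : ZMod (8 * D.natAbs)).val

/-- `f` takes a value congruent to `u` modulo `D`. -/
def IsVal (f : Form D) (u : Res D) : Prop := ∃ x y : ℤ, f.eval x y ≡ res u [ZMOD D]

theorem res_facts (u : Res D) : Odd (res u) ∧ IsCoprime (res u : ℤ) D := by
  have h := ZMod.val_coe_unit_coprime u
  refine ⟨Nat.coprime_two_right.1 (h.coprime_dvd_right (Dvd.dvd.mul_right (by norm_num) _)),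
    Int.isCoprime_iff_nat_coprime.2 ?_⟩
  simpa using h.coprime_dvd_right (dvd_mul_left D.natAbs 8)

theorem dvd_modulus : D ∣ ((8 * D.natAbs : ℕ) : ℤ) :=
  Int.dvd_natCast.2 (dvd_mul_left _ _)

theorem cast_res (hD0 : D ≠ 0) (u : Res D) :
    (u : ZMod (8 * D.natAbs)) = ((res u : ℤ) : ZMod (8 * D.natAbs)) := by
  have : NeZero (8 * D.natAbs) := ⟨mul_ne_zero (by norm_num) (Int.natAbs_ne_zero.2 hD0)⟩
  rw [Int.cast_natCast, ZMod.natCast_zmod_val]

theorem res_modEq (hD0 : D ≠ 0) {u : Res D} {m : ℤ} (hu : (u : ZMod (8 * D.natAbs)) = m) :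
    (res u : ℤ) ≡ m [ZMOD D] :=
  ((ZMod.intCast_eq_intCast_iff _ _ _).1 ((cast_res hD0 u).symm.trans hu)).of_dvd dvd_modulus

theorem res_mul (hD0 : D ≠ 0) (u v : Res D) :
    (res (u * v) : ℤ) ≡ res u * res v [ZMOD D] :=
  res_modEq hD0 (by rw [Units.val_mul, Int.cast_mul, ← cast_res hD0, ← cast_res hD0])

theorem exists_unit_of_odd {m : ℤ} (hm : Odd m) (hc : IsCoprime m D) :
    ∃ u : Res D, (u : ZMod (8 * D.natAbs)) = m := by
  refine (ZMod.coe_int_isUnit_iff_isCoprime m (8 * D.natAbs)).2 ?_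
  rw [Int.isCoprime_iff_nat_coprime, Int.natAbs_natCast]
  exact Nat.Coprime.mul_left ((Nat.coprime_two_left.2 hm.natAbs).pow_left 3)
    (Int.isCoprime_iff_nat_coprime.1 hc).symm

theorem exists_unit (hD0 : D ≠ 0) {m : ℤ} (hc : IsCoprime m D) :
    ∃ u : Res D, (res u : ℤ) ≡ m [ZMOD D] := by
  obtain ⟨m', hm', hodd⟩ : ∃ m', m' ≡ m [ZMOD D] ∧ Odd m' := by
    rcases Int.even_or_odd m with he | ho
    · refine ⟨m + D, Int.add_modEq_right, he.add_odd ?_⟩
      rw [← Int.not_even_iff_odd]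
      exact fun hD => Int.prime_two.not_isUnit (hc.isUnit_of_dvd' he.two_dvd hD.two_dvd)
    · exact ⟨m, rfl, ho⟩
  obtain ⟨u, hu⟩ := exists_unit_of_odd hodd (isCoprime_of_modEq hm'.symm hc)
  exact ⟨u, (res_modEq hD0 hu).trans hm'⟩

theorem jacobi_cases {m : ℕ} (hc : IsCoprime (m : ℤ) D) :
    jacobiSym D m = 1 ∨ jacobiSym D m = -1 :=
  jacobiSym.eq_one_or_neg_one (Int.isCoprime_iff_gcd_eq_one.1 hc.symm)

/-- The character `(D / ·)`. -/
def eta (hD0 : D ≠ 0) (hD4 : D % 4 = 0 ∨ D % 4 = 1) : Res D →* ℤˣ where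
  toFun u := if jacobiSym D (res u) = 1 then 1 else -1
  map_one' := by
    obtain ⟨h1, -⟩ := res_facts (1 : Res D)
    rw [GenusPrimes.jacobi_periodic hD4 h1 odd_one (res_modEq hD0 (m := (1 : ℕ)) (by simp)),
      jacobiSym.one_right, if_pos rfl]
  map_mul' u v := by
    obtain ⟨hu, hu'⟩ := res_facts u
    obtain ⟨hv, hv'⟩ := res_facts v
    have e : jacobiSym D (res (u * v)) = jacobiSym D (res u) * jacobiSym D (res v) := by
      rw [← jacobiSym.mul_right' D hu.pos.ne' hv.pos.ne']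
      refine GenusPrimes.jacobi_periodic hD4 (res_facts _).1 (hu.mul hv) ?_
      rw [Nat.cast_mul]
      exact res_mul hD0 u v
    rw [e]
    rcases jacobi_cases hu' with a | a <;> rcases jacobi_cases hv' with b | b <;> simp [a, b]

theorem eta_eq_one_iff (hD0 : D ≠ 0) (hD4 : D % 4 = 0 ∨ D % 4 = 1) {u : Res D} {m : ℕ}
    (hm : Odd m) (h : (m : ℤ) ≡ res u [ZMOD D]) :
    eta hD0 hD4 u = 1 ↔ jacobiSym D m = 1 := by
  rw [GenusPrimes.jacobi_periodic hD4 hm (res_facts u).1 h]
  change (if _ then (1 : ℤˣ) else -1) = 1 ↔ _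
  split_ifs with h1 <;> simp [h1]

/-- A positive odd value in the class of a given one. -/
theorem exists_pos_odd_value (hns : ¬IsSquare D) (f : Form D) {x y : ℤ}
    (hc : IsCoprime (f.eval x y) D) :
    ∃ m : ℕ, Odd m ∧ (m : ℤ) ≡ f.eval x y [ZMOD D] ∧ f.Represents m := by
  have hD0 : D ≠ 0 := fun h => hns (h ▸ IsSquare.zero)
  obtain ⟨x', y', hxy, hodd⟩ :
      ∃ x' y', f.eval x' y' ≡ f.eval x y [ZMOD D] ∧ Odd (f.eval x' y') := by
    rcases Int.even_or_odd D with he | ho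
    · refine ⟨x, y, rfl, Int.not_even_iff_odd.1 fun h => ?_⟩
      exact Int.prime_two.not_isUnit (hc.isUnit_of_dvd' h.two_dvd he.two_dvd)
    · exact GenusPrimes.exists_odd_value ho f x y
  obtain ⟨s, t, hF⟩ : ∃ s t : ℤ, 0 < f.eval s t := by
    by_cases ha : 0 < f.a
    · exact ⟨1, 0, by simpa [Form.eval] using ha⟩
    have hD : 0 < D := by
      rcases lt_or_gt_of_ne hD0 with h | h
      exacts [absurd (f.pos h) ha, h]
    refine ⟨f.b, -2 * f.a, ?_⟩
    rw [show f.eval f.b (-2 * f.a) = -f.a * D by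
      simp only [Form.eval]
      linear_combination -f.a * f.disc]
    exact mul_pos (neg_pos.2 ((not_lt.1 ha).lt_of_ne (f.a_ne_zero hns))) hD
  set L := 2 * f.a * x' * s + f.b * (x' * t + y' * s) + 2 * f.c * y' * t
  obtain ⟨K, hK⟩ : ∃ K, K = |f.eval x' y'| + |L| + 1 := ⟨_, rfl⟩
  have e : f.eval (x' + 2 * D * K * s) (y' + 2 * D * K * t) =
      f.eval x' y' + 2 * D * (K * L + 2 * D * K ^ 2 * f.eval s t) := by
    simp only [Form.eval, L]
    ring
  have hpos : 0 < f.eval (x' + 2 * D * K * s) (y' + 2 * D * K * t) := by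
    have hDD : 1 ≤ D ^ 2 := sq_pos_iff.2 hD0
    rw [e]
    have h1 : -(D ^ 2 * |L|) ≤ D * L := by
      have : |D * L| ≤ D ^ 2 * |L| := by
        rw [abs_mul, ← sq_abs D]
        exact mul_le_mul_of_nonneg_right
          (le_self_pow₀ (Int.one_le_abs hD0) two_ne_zero) (abs_nonneg _)
      linarith [neg_abs_le (D * L)]
    have hK0 : 0 < K := by linarith [abs_nonneg (f.eval x' y'), abs_nonneg L]
    have h2 : 4 * D ^ 2 * K ^ 2 ≤ 4 * D ^ 2 * K ^ 2 * f.eval s t :=
      le_mul_of_one_le_right (by positivity) hF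
    have h3 : 2 * K * (2 * K - |L|) ≤ 2 * K * D ^ 2 * (2 * K - |L|) := by
      refine mul_le_mul_of_nonneg_right (le_mul_of_one_le_right (by positivity) hDD) ?_
      linarith [abs_nonneg (f.eval x' y')]
    have h4 : 2 * K ≤ 2 * K * (2 * K - |L|) :=
      le_mul_of_one_le_right (by positivity) (by linarith [abs_nonneg (f.eval x' y')])
    linarith [neg_abs_le (f.eval x' y'), mul_le_mul_of_nonneg_left h1
      (show (0 : ℤ) ≤ 2 * K by positivity), abs_nonneg L]
  obtain ⟨m, hm⟩ := Int.eq_ofNat_of_zero_le hpos.le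
  refine ⟨m, ?_, ?_, _, _, hm⟩ <;> rw [e] at hm
  · rw [← Int.odd_coe_nat, ← hm, mul_assoc]
    exact hodd.add_even (even_two_mul _)
  · rw [← hm]
    exact (Int.modEq_iff_dvd.2 ⟨-(2 * (K * L + 2 * D * K ^ 2 * f.eval s t)), by ring⟩).trans hxy

/-- `(D / ·)` is not trivial. -/
theorem exists_symbol_neg (hns : ¬IsSquare D) :
    ∃ n : ℕ, Odd n ∧ IsCoprime (n : ℤ) D ∧ jacobiSym D n = -1 := by
  suffices h : ∃ n : ℕ, Odd n ∧ jacobiSym D n = -1 by
    obtain ⟨n, hn, hJ⟩ := h
    refine ⟨n, hn, ?_, hJ⟩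
    by_contra hc
    have : NeZero n := ⟨hn.pos.ne'⟩
    rw [(jacobiSym.eq_zero_iff_not_coprime).2 fun e => hc
      (Int.isCoprime_iff_gcd_eq_one.2 e).symm] at hJ
    norm_num at hJ
  have hD0 : D ≠ 0 := fun h => hns (h ▸ IsSquare.zero)
  obtain ⟨s, b, -, hb, hbs, hs⟩ := Nat.sq_mul_squarefree_of_pos (Int.natAbs_pos.2 hD0)
  by_cases h : ∃ p, p.Prime ∧ p ≠ 2 ∧ p ∣ s
  · obtain ⟨p, hp, hp2, hps⟩ := h
    have : Fact p.Prime := ⟨hp⟩
    have hN : D.natAbs ≠ 0 := Int.natAbs_ne_zero.2 hD0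
    have hb0 : b ≠ 0 := fun e => hN (by rw [← hbs, e]; simp)
    have he : Odd (D.natAbs.factorization p) := by
      have h1 : s.factorization p = 1 := le_antisymm (Squarefree.natFactorization_le_one p hs)
        (Nat.Prime.factorization_pos_of_dvd hp hs.ne_zero hps)
      rw [← hbs, Nat.factorization_mul (pow_ne_zero 2 hb0) hs.ne_zero, Nat.factorization_pow]
      simp [h1]
    obtain ⟨k, hk⟩ : (p : ℤ) ^ D.natAbs.factorization p ∣ D := by
      rw [← Nat.cast_pow]
      exact Int.natCast_dvd.2 (Nat.ordProj_dvd _ _)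
    have hkr : k.natAbs = D.natAbs / p ^ D.natAbs.factorization p := by
      conv_rhs => arg 1; rw [hk]
      rw [Int.natAbs_mul, Int.natAbs_pow, Int.natAbs_natCast,
        Nat.mul_div_cancel_left _ (pow_pos hp.pos _)]
    have hpk : ¬p ∣ k.natAbs := hkr ▸ Nat.not_dvd_ordCompl hp hN
    have hk0 : k.natAbs ≠ 0 := fun e => hpk (e ▸ dvd_zero p)
    obtain ⟨a, ha⟩ := FiniteField.exists_nonsquare (F := ZMod p)
      ((ZMod.ringChar_zmod_n p).trans_ne hp2)
    obtain ⟨n, hnp, hn8⟩ := Nat.chineseRemainder (m := 8 * k.natAbs) ((Nat.Prime.coprime_iff_not_dvd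
      hp).2 fun h => (hp.dvd_mul.1 h).elim (fun h8 => hp2 ((Nat.prime_dvd_prime_iff_eq hp
        Nat.prime_two).1 (hp.dvd_of_dvd_pow (n := 3) h8))) hpk) a.val 1
    have h4 : n % 4 = 1 := hn8.of_dvd (Dvd.dvd.mul_right (by norm_num) _)
    have hodd : Odd n := Nat.odd_iff.2 (by omega)
    have h4k : n % (4 * k.natAbs) = 1 := by
      have h8 := hn8.of_dvd (mul_dvd_mul_right (show 4 ∣ 8 by norm_num) k.natAbs)
      rw [Nat.ModEq, Nat.one_mod_eq_one.2 (show 4 * k.natAbs ≠ 1 by omega)] at h8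
      exact h8
    refine ⟨n, hodd, ?_⟩
    rw [hk, jacobiSym.mul_left, jacobiSym.pow_left, jacobiSym.mod_right k hodd, h4k,
      jacobiSym.one_right, mul_one,
      jacobiSym.quadratic_reciprocity_one_mod_four' (hp.odd_of_ne_two hp2) h4,
      ← jacobiSym.legendreSym.to_jacobiSym, (legendreSym.eq_neg_one_iff p).2 ?_, he.neg_one_pow]
    rwa [Int.cast_natCast, (ZMod.natCast_eq_natCast_iff _ _ _).2 hnp, ZMod.natCast_zmod_val]
  · push Not at h
    have hs12 : s = 1 ∨ s = 2 := by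
      have hsub : s.primeFactors ⊆ {2} := fun q hq => by
        rw [Finset.mem_singleton]
        by_contra hq2
        exact h q (Nat.prime_of_mem_primeFactors hq) hq2 (Nat.dvd_of_mem_primeFactors hq)
      rw [← Nat.prod_primeFactors_of_squarefree hs]
      rcases Finset.subset_singleton_iff.1 hsub with e | e <;> simp [e]
    obtain ⟨c, k, hc, hc8, hk, hsym⟩ : ∃ (c : ℕ) (k : ℤ), c.Coprime 8 ∧
        (c % 2 = 1 ∧ c < 8) ∧ D = k * (b : ℤ) ^ 2 ∧
        ∀ n : ℕ, n % 8 = c → jacobiSym k n = -1 := by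
      have hodd : ∀ n c : ℕ, n % 8 = c → c % 2 = 1 → Odd n := fun n c h1 h2 =>
        Nat.odd_iff.2 (by omega)
      have hz : (D.natAbs : ℤ) = (b : ℤ) ^ 2 * s := by exact_mod_cast hbs.symm
      rcases Int.natAbs_eq D with e | e <;> rcases hs12 with rfl | rfl <;>
        simp only [Nat.cast_one, Nat.cast_ofNat] at hz <;> rw [hz] at e
      · exact absurd ⟨(b : ℤ), by rw [e]; ring⟩ hns
      · refine ⟨3, 2, by norm_num, by norm_num, by rw [e]; ring, fun n hn => ?_⟩
        rw [jacobiSym.at_two (hodd n 3 hn rfl), ZMod.χ₈_nat_eq_if_mod_eight, if_neg (by omega),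
          if_neg (by omega)]
      · refine ⟨3, -1, by norm_num, by norm_num, by rw [e]; ring, fun n hn => ?_⟩
        rw [jacobiSym.at_neg_one (hodd n 3 hn rfl), ZMod.χ₄_nat_three_mod_four (by omega)]
      · refine ⟨5, -2, by norm_num, by norm_num, by rw [e]; ring, fun n hn => ?_⟩
        rw [jacobiSym.at_neg_two (hodd n 5 hn rfl), ZMod.χ₈'_nat_eq_if_mod_eight,
          if_neg (by omega), if_neg (by omega)]
    obtain ⟨n, hnb, hn, hmod⟩ := Nat.forall_exists_prime_gt_and_modEq (b + 2) (q := 8)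
      (by norm_num) hc
    have hn2 : n % 8 = c % 8 := hmod
    refine ⟨n, Nat.odd_iff.2 (by omega), ?_⟩
    rw [hk, jacobiSym.mul_left, jacobiSym.sq_one', mul_one]
    · exact hsym n (by omega)
    · rw [Int.gcd_natCast_natCast]
      refine (hn.coprime_iff_not_dvd.2 fun hd => ?_).symm
      have hb' : 0 < b := hb
      have := Nat.le_of_dvd hb' hd
      omega

variable (hns : ¬IsSquare D) (hD4 : D % 4 = 0 ∨ D % 4 = 1) (hD0 : D ≠ 0)
include hns

theorem index_ker_eta : (eta hD0 hD4).ker.index = 2 := by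
  obtain ⟨n, hn, hc, hJ⟩ := exists_symbol_neg hns
  obtain ⟨u, hu⟩ := exists_unit_of_odd (m := (n : ℤ)) (by exact_mod_cast hn) hc
  have hne : eta hD0 hD4 u ≠ 1 := by
    rw [ne_eq, eta_eq_one_iff hD0 hD4 hn (res_modEq hD0 hu).symm, hJ]
    norm_num
  have hr : (eta hD0 hD4).range = ⊤ := eq_top_iff.2 fun z _ => by
    rcases Int.units_eq_one_or z with rfl | rfl
    · exact one_mem _
    · exact ⟨u, (Int.units_eq_one_or _).resolve_left hne⟩
  rw [Subgroup.index_ker, hr, Subgroup.card_top, Nat.card_eq_fintype_card, Fintype.card_units_int]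

/-- **Symbol one means value of a form.** -/
theorem eta_eq_one_iff_exists (u : Res D) :
    eta hD0 hD4 u = 1 ↔ ∃ f : Form D, IsVal f u := by
  obtain ⟨-, hcu⟩ := res_facts u
  constructor
  · intro h
    have : NeZero (8 * D.natAbs) := ⟨mul_ne_zero (by norm_num) (Int.natAbs_ne_zero.2 hD0)⟩
    obtain ⟨p, hgt, hp, hpu⟩ := Nat.forall_exists_prime_gt_and_eq_mod u.isUnit (8 * D.natAbs)
    have hmod : (p : ℤ) ≡ res u [ZMOD D] :=
      (res_modEq hD0 (m := (p : ℤ)) (by rw [Int.cast_natCast, hpu])).symm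
    have hD1 : 0 < D.natAbs := Int.natAbs_pos.2 hD0
    obtain ⟨i, hi⟩ := hp.odd_of_ne_two (by omega)
    have : Fact p.Prime := ⟨hp⟩
    obtain ⟨r, hr⟩ := ZMod.isSquare_of_jacobiSym_eq_one
      ((eta_eq_one_iff hD0 hD4 ⟨i, hi⟩ hmod).1 h)
    obtain ⟨r, rfl⟩ := ZMod.intCast_surjective r
    have hpr : (p : ℤ) ∣ r ^ 2 - D := by
      rw [← ZMod.intCast_zmod_eq_zero_iff_dvd]
      push_cast
      rw [hr]
      ring
    have hb : 4 * (p : ℤ) ∣ (r + p * (D - r)) ^ 2 - D := by
      refine IsCoprime.mul_dvd ?_ ?_ ?_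
      · rw [Int.isCoprime_iff_nat_coprime]
        simpa using (Nat.coprime_two_left.2 ⟨i, hi⟩).pow_left 2
      · rw [show r + (p : ℤ) * (D - r) = D + 2 * (i * (D - r)) by rw [hi]; push_cast; ring,
          show (D + 2 * (i * (D - r))) ^ 2 - D =
            4 * ((i * (D - r)) ^ 2 + i * (D - r) * D) + D * (D - 1) by ring]
        refine (dvd_mul_right _ _).add ?_
        rcases hD4 with h0 | h1
        · exact (Int.dvd_of_emod_eq_zero h0).mul_right _
        · exact (show (4 : ℤ) ∣ D - 1 by omega).mul_left D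
      · rw [show (r + (p : ℤ) * (D - r)) ^ 2 - D =
          r ^ 2 - D + p * ((D - r) * (2 * r + p * (D - r))) by ring]
        exact hpr.add (dvd_mul_right _ _)
    obtain ⟨g, hg⟩ := GenusPrimes.exists_form_prime hp (isCoprime_of_modEq hmod.symm hcu) hb
    exact ⟨g, 1, 0, by rw [show g.eval 1 0 = p by rw [Form.eval, hg]; ring]; exact hmod⟩
  · rintro ⟨f, x, y, h⟩
    obtain ⟨m, hm, hmod, x', y', he⟩ :=
      exists_pos_odd_value hns f (isCoprime_of_modEq h.symm hcu)
    exact (eta_eq_one_iff hD0 hD4 hm (hmod.trans h)).2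
      (GenusPrimes.jacobi_of_value hns f he hm (isCoprime_of_modEq (hmod.trans h).symm hcu))

include hD4 hD0

theorem chars_eq_one_iff_isVal (u : Res D) :
    chars D u = 1 ↔ IsVal (principal hD4) u := by
  obtain ⟨hodd, hcu⟩ := res_facts u
  rw [chars_eq_one_iff (cast_res hD0 u),
    ← principal_value_iff hns hD4 (by exact_mod_cast hodd) hcu]
  rfl

omit hns hD0 in
theorem sq_isVal (hD0 : D ≠ 0) (u : Res D) : IsVal (principal hD4) (u * u) := by
  refine ⟨res u, 0, ?_⟩
  rw [eval_principal hD4, show (res u : ℤ) ^ 2 + D % 4 * res u * 0 + -(D / 4) * 0 ^ 2 =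
    res u * res u by ring]
  exact (res_mul hD0 u u).symm

/-- The target has exponent two on the image. -/
theorem chars_eq_iff (u v : Res D) : chars D u = chars D v ↔ chars D (u * v) = 1 := by
  have hv : chars D v * chars D v = 1 := by
    rw [← map_mul, chars_eq_one_iff_isVal hns hD4 hD0]
    exact sq_isVal hD4 hD0 v
  rw [map_mul]
  exact ⟨fun h => by rw [h, hv], fun h =>
    (mul_one _).symm.trans ((congrArg _ hv.symm).trans ((mul_assoc (G := Target D) _ _ _).symm.trans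
      ((congrArg (· * chars D v) h).trans (one_mul (M := Target D) _))))⟩

theorem chars_eq_of_isVal {f : Form D} {u v : Res D} (hu : IsVal f u) (hv : IsVal f v) :
    chars D u = chars D v := by
  obtain ⟨G, h1, hinv, -, hrep⟩ := exists_group hns hD4
  obtain ⟨x, y, hx⟩ := hu
  obtain ⟨x', y', hx'⟩ := hv
  obtain ⟨s, t, e⟩ := hrep f.opp f (principal hD4) (f.eval x y) (f.eval x' y')
    (by rw [h1 (principal hD4) rfl, hinv f f.opp rfl rfl rfl, inv_mul_cancel])
    ⟨x, -y, by simp only [Form.eval, Form.opp]; ring⟩ ⟨x', y', rfl⟩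
  rw [chars_eq_iff hns hD4 hD0, chars_eq_one_iff_isVal hns hD4 hD0]
  exact ⟨s, t, by rw [e]; exact (hx.mul hx').trans (res_mul hD0 u v).symm⟩

omit hns hD4 in
theorem exists_isVal (f : Form D) : ∃ u : Res D, IsVal f u := by
  obtain ⟨x, y, -, h⟩ := f.exists_coprime_value hD0
  obtain ⟨u, hu⟩ := exists_unit hD0 h
  exact ⟨u, x, y, hu.symm⟩

theorem sameGenus_iff_chars {f g : Form D} {u v : Res D} (hu : IsVal f u) (hv : IsVal g v) :
    SameGenus f g ↔ chars D u = chars D v := by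
  constructor
  · rintro ⟨x, y, s, t, hc, hmod⟩
    obtain ⟨w, hw⟩ := exists_unit hD0 hc
    exact (chars_eq_of_isVal hns hD4 hD0 hu ⟨x, y, hw.symm⟩).trans
      (chars_eq_of_isVal hns hD4 hD0 ⟨s, t, hmod.symm.trans hw.symm⟩ hv)
  · intro h
    rw [chars_eq_iff hns hD4 hD0, chars_eq_one_iff_isVal hns hD4 hD0] at h
    obtain ⟨x, y, hx⟩ := hu
    obtain ⟨s, t, hs⟩ := hv
    obtain ⟨x', y', hx'⟩ := h
    obtain ⟨G, h1, -, -, hrep⟩ := exists_group hns hD4
    obtain ⟨x₁, y₁, e⟩ := hrep f (principal hD4) f _ _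
      (by rw [h1 (principal hD4) rfl, mul_one]) ⟨x, y, rfl⟩ ⟨x', y', rfl⟩
    have hmod : f.eval x₁ y₁ ≡ (res u : ℤ) * (res u * res v) [ZMOD D] :=
      e ▸ hx.mul (hx'.trans (res_mul hD0 u v))
    refine ⟨x₁, y₁, res u * s, res u * t, isCoprime_of_modEq hmod.symm
      ((res_facts u).2.mul_left ((res_facts u).2.mul_left (res_facts v).2)), ?_⟩
    rw [show g.eval (res u * s) (res u * t) = (res u : ℤ) * (res u * g.eval s t) by
      simp only [Form.eval]; ring]
    exact hmod.trans ((hs.mul_left _).mul_left _).symm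

/-- **The genera are half as many as the combinations of characters.** -/
theorem card_genera_mul_two :
    Nat.card (Quot (SameGenus (D := D))) * 2 = Nat.card (Target D) := by
  set H : Subgroup (Target D) := Subgroup.map (N := Target D) (chars D) (eta hD0 hD4).ker
  have hidx : H.index = 2 := by
    rw [Subgroup.index_map_eq (G' := Target D) _ (chars_surjective hD0) fun u hu => ?_,
      index_ker_eta hns]
    exact (eta_eq_one_iff_exists hns hD4 hD0 u).2
      ⟨_, (chars_eq_one_iff_isVal hns hD4 hD0 u).1 hu⟩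
  choose w hw using exists_isVal (D := D) hD0
  let φ : Form D → H := fun f => ⟨chars D (w f), w f,
    (eta_eq_one_iff_exists hns hD4 hD0 _).2 ⟨f, hw f⟩, rfl⟩
  have hφ : ∀ f g, φ f = φ g ↔ SameGenus f g := fun f g =>
    Subtype.ext_iff.trans (sameGenus_iff_chars hns hD4 hD0 (hw f) (hw g)).symm
  have hbij : Function.Bijective
      (Quot.lift φ fun f g h => (hφ f g).2 h : Quot (SameGenus (D := D)) → H) := by
    refine ⟨fun a b hab => ?_, fun q => ?_⟩
    · obtain ⟨f, rfl⟩ := Quot.exists_rep a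
      obtain ⟨g, rfl⟩ := Quot.exists_rep b
      exact Quot.sound ((hφ f g).1 hab)
    · obtain ⟨q, u, hu, rfl⟩ := q
      obtain ⟨f, hf⟩ := (eta_eq_one_iff_exists hns hD4 hD0 u).1 hu
      exact ⟨Quot.mk _ f, Subtype.ext (chars_eq_of_isVal hns hD4 hD0 (hw f) hf)⟩
  rw [Nat.card_eq_of_bijective _ hbij, ← hidx, H.card_mul_index]

end FA.GenusTheory
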