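import Fermat.Agent.GaussComposition.Group
import Fermat.Agent.GaussDuplication.Ternary
import Mathlib.NumberTheory.LegendreSymbol.QuadraticChar.Basic
import Mathlib.GroupTheory.Index

/-!
# The assigned characters of a discriminant

The Legendre symbols at the odd primes dividing `D` and the class modulo `8` up to values of the
principal form: together a homomorphism of `(ℤ / 8 D)ˣ` onto a group of order `2 ^ μ` whose kernel
is the residues of the values of the principal form.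
-/

set_option autoImplicit false

noncomputable section

namespace FA.GenusTheory

open FA.GaussComposition

/-- The units modulo `8 |D|`. -/
abbrev Res (D : ℤ) : Type := (ZMod (8 * D.natAbs))ˣ

/-- The odd primes dividing `D`. -/
def oddPrimes (D : ℤ) : Finset ℕ := D.natAbs.primeFactors.erase 2

theorem prime_of_mem {D : ℤ} {p : ℕ} (h : p ∈ oddPrimes D) : p.Prime :=
  Nat.prime_of_mem_primeFactors (Finset.mem_of_mem_erase h)

theorem dvd_of_mem {D : ℤ} {p : ℕ} (h : p ∈ oddPrimes D) : p ∣ 8 * D.natAbs :=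
  (Nat.dvd_of_mem_primeFactors (Finset.mem_of_mem_erase h)).mul_left 8

/-- The values of `x² + b x y + c y²` among the units modulo `8`. -/
def values8 (b c : ZMod 8) : Subgroup (ZMod 8)ˣ where
  carrier := {u | ∃ x y : ZMod 8, x ^ 2 + b * x * y + c * y ^ 2 = u}
  one_mem' := ⟨1, 0, by simp⟩
  mul_mem' := by
    rintro u v ⟨x, y, hu⟩ ⟨x', y', hv⟩
    refine ⟨x * x' - c * y * y', x * y' + y * x' + b * y * y', ?_⟩
    rw [Units.val_mul, ← hu, ← hv]
    ring
  inv_mem' := by
    intro u hu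
    rwa [show u⁻¹ = u from (by decide : ∀ u : (ZMod 8)ˣ, u⁻¹ = u) u]

/-- The target of the assigned characters. -/
abbrev Target (D : ℤ) : Type :=
  ({p // p ∈ oddPrimes D} → ℤˣ) ×
    ((ZMod 8)ˣ ⧸ values8 ((D % 4 : ℤ) : ZMod 8) ((-(D / 4) : ℤ) : ZMod 8))

/-- The assigned character at an odd prime. -/
def charAt {D : ℤ} (p : {p // p ∈ oddPrimes D}) : Res D →* ℤˣ :=
  haveI : Fact p.1.Prime := ⟨prime_of_mem p.2⟩
  (quadraticChar (ZMod p.1)).toUnitHom.comp (ZMod.unitsMap (dvd_of_mem p.2))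

/-- The assigned characters. -/
def chars (D : ℤ) : Res D →* Target D :=
  (MonoidHom.pi fun p => charAt p).prod
    ((QuotientGroup.mk' _).comp (ZMod.unitsMap (Dvd.intro D.natAbs rfl)))

/-- The principal form. -/
def principal {D : ℤ} (hD4 : D % 4 = 0 ∨ D % 4 = 1) : Form D :=
  ⟨1, D % 4, -(D / 4), by
    have := Int.mul_ediv_add_emod D 4
    rcases hD4 with h | h <;> rw [h] at this ⊢ <;> linarith,
    fun _ hp h1 _ _ => hp.one_lt.ne' (Nat.dvd_one.1 (Int.natCast_dvd_natCast.1 h1)),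
    fun _ => one_pos⟩

theorem eval_principal {D : ℤ} (hD4 : D % 4 = 0 ∨ D % 4 = 1) (x y : ℤ) :
    (principal hD4).eval x y = x ^ 2 + D % 4 * x * y + -(D / 4) * y ^ 2 := by
  simp [Form.eval, principal]

section

variable {D : ℤ} {u : Res D} {m : ℤ}

theorem charAt_eq_one_iff (p : {p // p ∈ oddPrimes D})
    (hu : (u : ZMod (8 * D.natAbs)) = m) :
    charAt p u = 1 ↔ IsSquare (m : ZMod p.1) := by
  have : Fact p.1.Prime := ⟨prime_of_mem p.2⟩
  have hval : ((ZMod.unitsMap (dvd_of_mem p.2) u : (ZMod p.1)ˣ) : ZMod p.1) = m := by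
    rw [ZMod.unitsMap_val, hu, ZMod.cast_intCast (dvd_of_mem p.2)]
  rw [← hval, ← quadraticChar_one_iff_isSquare (Units.ne_zero _), charAt, MonoidHom.comp_apply,
    Units.ext_iff, MulChar.coe_toUnitHom, Units.val_one]

theorem chars_eq_one_iff (hu : (u : ZMod (8 * D.natAbs)) = m) :
    chars D u = 1 ↔ (∀ p ∈ oddPrimes D, IsSquare (m : ZMod p)) ∧
      ∃ x y : ZMod 8, x ^ 2 + ((D % 4 : ℤ) : ZMod 8) * x * y +
        ((-(D / 4) : ℤ) : ZMod 8) * y ^ 2 = (m : ZMod 8) := by
  have h8 : ((ZMod.unitsMap (Dvd.intro D.natAbs rfl : 8 ∣ 8 * D.natAbs) u : (ZMod 8)ˣ) :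
      ZMod 8) = m := by
    rw [ZMod.unitsMap_val, hu, ZMod.cast_intCast (Dvd.intro _ rfl)]
  rw [chars, MonoidHom.prod_apply, Prod.mk_eq_one, MonoidHom.comp_apply, QuotientGroup.mk'_apply,
    QuotientGroup.eq_one_iff, funext_iff]
  refine and_congr ⟨fun h p hp => (charAt_eq_one_iff ⟨p, hp⟩ hu).1 (h ⟨p, hp⟩),
    fun h p => (charAt_eq_one_iff p hu).2 (h p.1 p.2)⟩ ?_
  rw [← h8]
  rfl

end

theorem exists_of_four_mul : ∀ c u : ZMod 8, u * u = 1 →
    (∃ x y t : ZMod 8, x ^ 2 + c * y ^ 2 + 4 * c * t = u) →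
      ∃ x y : ZMod 8, x ^ 2 + c * y ^ 2 = u := by
  decide +kernel

theorem exists_of_odd : ∀ c u : ZMod 8,
    u * u = 1 → ∃ x y : ZMod 8, x ^ 2 + 1 * x * y + c * y ^ 2 = u := by
  decide +kernel

variable {D : ℤ} (hns : ¬IsSquare D) (hD4 : D % 4 = 0 ∨ D % 4 = 1)
include hns

omit hns in
theorem intCast_sq_eq_one {m : ℤ} (h : Odd m) : (m : ZMod 8) * m = 1 := by
  obtain ⟨k, rfl⟩ := h
  push_cast
  generalize ((k : ZMod 8)) = t
  revert t
  decide +kernel

include hD4

/-- **The kernel**: residues of values of the principal form. -/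
theorem principal_value_iff {m : ℤ} (hodd : Odd m) (hcop : IsCoprime m D) :
    (∃ x y : ℤ, (principal hD4).eval x y ≡ m [ZMOD D]) ↔
      (∀ p ∈ oddPrimes D, IsSquare (m : ZMod p)) ∧
      ∃ x y : ZMod 8, x ^ 2 + ((D % 4 : ℤ) : ZMod 8) * x * y +
        ((-(D / 4) : ℤ) : ZMod 8) * y ^ 2 = (m : ZMod 8) := by
  have hD0 : D ≠ 0 := fun h => hns (h ▸ ⟨0, (mul_zero 0).symm⟩)
  have hdiv := Int.mul_ediv_add_emod D 4
  simp only [eval_principal hD4]
  constructor
  · rintro ⟨x, y, h⟩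
    refine ⟨fun p hp => ?_, ?_⟩
    · have hpp := prime_of_mem hp
      have hp2 : p ≠ 2 := Finset.ne_of_mem_erase hp
      have : Fact p.Prime := ⟨hpp⟩
      have hpD : (p : ℤ) ∣ D :=
        Int.natCast_dvd.2 (Nat.dvd_of_mem_primeFactors (Finset.mem_of_mem_erase hp))
      have h2 : (2 : ZMod p) ≠ 0 := by
        intro e
        exact hp2 ((Nat.prime_dvd_prime_iff_eq hpp Nat.prime_two).1
          ((ZMod.natCast_eq_zero_iff 2 p).1 (by exact_mod_cast e)))
      have hm : ((x ^ 2 + D % 4 * x * y + -(D / 4) * y ^ 2 : ℤ) : ZMod p) = m :=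
        (ZMod.intCast_eq_intCast_iff _ _ _).2 (h.of_dvd hpD)
      refine ⟨(2 * x + ((D % 4 : ℤ) : ZMod p) * y) / 2, ?_⟩
      have hz : (D : ZMod p) = 0 := (ZMod.intCast_zmod_eq_zero_iff_dvd _ _).2 hpD
      have hsq : ((D % 4 : ℤ) : ZMod p) ^ 2 = ((D % 4 : ℤ) : ZMod p) := by
        rcases hD4 with e | e <;> rw [e] <;> simp
      rw [← hdiv] at hz
      push_cast at hm hz
      rw [div_mul_div_comm, eq_div_iff (mul_ne_zero h2 h2), ← hm]
      linear_combination -((y : ZMod p) ^ 2) * hz - (y : ZMod p) ^ 2 * hsq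
    · rcases hD4 with e | e
      · obtain ⟨c, hc⟩ : ∃ c, -(D / 4) = c := ⟨_, rfl⟩
        rw [e, hc] at h ⊢
        obtain ⟨t, ht⟩ := Int.modEq_iff_dvd.1 h
        have hm : (x : ZMod 8) ^ 2 + (c : ZMod 8) * (y : ZMod 8) ^ 2 +
            4 * (c : ZMod 8) * (-(t : ZMod 8)) = (m : ZMod 8) := by
          have ht' : m = x ^ 2 + c * y ^ 2 + 4 * c * -t := by
            rw [← hdiv, e, show D / 4 = -c by linarith] at ht
            linear_combination ht
          rw [ht']
          push_cast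
          ring
        obtain ⟨x', y', h'⟩ :=
          exists_of_four_mul _ _ (intCast_sq_eq_one hodd) ⟨_, _, _, hm⟩
        exact ⟨x', y', by rw [← h']; push_cast; ring⟩
      · rw [e]
        exact_mod_cast exists_of_odd _ _ (intCast_sq_eq_one hodd)
  · rintro ⟨hodd', x₀, y₀, h8⟩
    obtain ⟨X₀, rfl⟩ := ZMod.intCast_surjective x₀
    obtain ⟨Y₀, rfl⟩ := ZMod.intCast_surjective y₀
    obtain ⟨K, hK⟩ : ∃ K : ℕ, K = D.natAbs := ⟨_, rfl⟩
    have hloc : ∀ l ∈ D.natAbs.primeFactors, ∃ x y : ℤ,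
        (l : ℤ) ^ K ∣ x ^ 2 + D % 4 * x * y + -(D / 4) * y ^ 2 - m := by
      intro l hl
      have hlp := Nat.prime_of_mem_primeFactors hl
      have hlD : (l : ℤ) ∣ D := Int.natCast_dvd.2 (Nat.dvd_of_mem_primeFactors hl)
      have hlm : ¬(l : ℤ) ∣ m := fun h =>
        (Nat.prime_iff_prime_int.1 hlp).not_isUnit (hcop.isUnit_of_dvd' h hlD)
      rcases eq_or_ne l 2 with rfl | hl2
      · push_cast at hlD ⊢
        have e : D % 4 = 0 := by
          rcases hD4 with e | e
          · exact e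
          · omega
        obtain ⟨c, hc⟩ : ∃ c, -(D / 4) = c := ⟨_, rfl⟩
        rw [hc] at h8 ⊢
        rw [e] at h8 ⊢
        simp only [zero_mul, add_zero]
        push_cast at h8
        obtain ⟨t, ht⟩ : (8 : ℤ) ∣ X₀ ^ 2 + c * Y₀ ^ 2 - m := by
          have := (ZMod.intCast_zmod_eq_zero_iff_dvd (X₀ ^ 2 + c * Y₀ ^ 2 - m) 8).1 (by
            push_cast
            linear_combination h8)
          exact_mod_cast this
        have hsq : ∀ z : ℤ, Odd z → (8 : ℤ) ∣ z ^ 2 - 1 := fun z hz => by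
          have := (ZMod.intCast_zmod_eq_zero_iff_dvd (z ^ 2 - 1) 8).1 (by
            push_cast
            linear_combination intCast_sq_eq_one hz)
          exact_mod_cast this
        rcases Int.even_or_odd X₀ with hX | hX
        · have hcy : Odd (c * Y₀ ^ 2) := by
            rw [show c * Y₀ ^ 2 = m + (2 * (4 * t) - X₀ ^ 2) by linarith]
            exact hodd.add_even ((even_two_mul _).sub (hX.pow_of_ne_zero two_ne_zero))
          obtain ⟨hc1, hy1⟩ := Int.odd_mul.1 hcy
          obtain ⟨w, v, hwv⟩ : IsCoprime c ((2 : ℤ) ^ (K + 3)) := by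
            refine IsCoprime.pow_right ((Int.prime_two.coprime_iff_not_dvd.2 ?_).symm)
            rwa [← even_iff_two_dvd, Int.not_even_iff_odd]
          obtain ⟨s, hs⟩ := hsq Y₀ ((Int.odd_pow' two_ne_zero).1 hy1)
          obtain ⟨r, hr, -⟩ := GaussDuplication.exists_sq_congr_two (a := w * (m - X₀ ^ 2))
            ⟨s - w * t - 2 ^ K * v * Y₀ ^ 2, by
              linear_combination (-w) * ht + hs + Y₀ ^ 2 * hwv⟩ K
          refine ⟨X₀, r, (pow_dvd_pow 2 (Nat.le_add_right K 3)).trans ?_⟩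
          rw [show X₀ ^ 2 + c * r ^ 2 - m =
            c * (r ^ 2 - w * (m - X₀ ^ 2)) - (m - X₀ ^ 2) * v * 2 ^ (K + 3) by
              linear_combination (X₀ ^ 2 - m) * (-hwv)]
          exact (hr.mul_left c).sub (dvd_mul_left _ _)
        · obtain ⟨s, hs⟩ := hsq X₀ hX
          obtain ⟨r, hr, -⟩ := GaussDuplication.exists_sq_congr_two (a := m - c * Y₀ ^ 2)
            ⟨s - t, by linear_combination hs - ht⟩ K
          refine ⟨r, Y₀, (pow_dvd_pow 2 (Nat.le_add_right K 3)).trans ?_⟩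
          rw [show r ^ 2 + c * Y₀ ^ 2 - m = r ^ 2 - (m - c * Y₀ ^ 2) by ring]
          exact hr
      · obtain ⟨a, ha⟩ := hodd' l (Finset.mem_erase.2 ⟨hl2, hl⟩)
        obtain ⟨a, rfl⟩ := ZMod.intCast_surjective a
        obtain ⟨r, hr⟩ := GaussDuplication.exists_sq_congr_odd hlp hl2 hlm ⟨a, by
          rw [← ZMod.intCast_zmod_eq_zero_iff_dvd]
          push_cast
          rw [ha]
          ring⟩ K
        exact ⟨r, 0, by simpa using (pow_dvd_pow _ (Nat.le_succ K)).trans hr⟩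
    choose! X Y hXY using hloc
    obtain ⟨x, hx⟩ := GaussDuplication.exists_crt X K _ fun l hl =>
      Nat.prime_of_mem_primeFactors hl
    obtain ⟨y, hy⟩ := GaussDuplication.exists_crt Y K _ fun l hl =>
      Nat.prime_of_mem_primeFactors hl
    refine ⟨x, y, Int.modEq_iff_dvd.2 (dvd_sub_comm.1 ?_)⟩
    have hl : ∀ l ∈ D.natAbs.primeFactors,
        (l : ℤ) ^ K ∣ x ^ 2 + D % 4 * x * y + -(D / 4) * y ^ 2 - m := fun l hl => by
      have ex := Int.modEq_iff_dvd.2 (hx l hl)
      have ey := Int.modEq_iff_dvd.2 (hy l hl)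
      exact (Int.ModEq.dvd_iff ((((ex.pow 2).add ((ex.mul_left (D % 4)).mul ey)).add
        ((ey.pow 2).mul_left _)).sub_right m)).1 (hXY l hl)
    have hprod : (∏ l ∈ D.natAbs.primeFactors, (l : ℤ) ^ K) ∣
        x ^ 2 + D % 4 * x * y + -(D / 4) * y ^ 2 - m :=
      Finset.prod_dvd_of_coprime (fun i hi j hj hij => (Nat.isCoprime_iff_coprime.2
        ((Nat.coprime_primes (Nat.prime_of_mem_primeFactors hi)
          (Nat.prime_of_mem_primeFactors hj)).2 hij)).pow) hl
    refine (Int.natAbs_dvd.1 ?_).trans hprod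
    rw [← Finset.prod_congr rfl fun l _ => Nat.cast_pow (α := ℤ) l K, ← Nat.cast_prod,
      Int.natCast_dvd_natCast]
    conv_lhs => rw [← Nat.prod_factorization_pow_eq_self (Int.natAbs_ne_zero.2 hD0)]
    rw [Nat.prod_factorization_eq_prod_primeFactors]
    refine Finset.prod_dvd_prod_of_dvd _ _ fun l hl => pow_dvd_pow l ?_
    rw [hK]
    exact (Nat.factorization_lt l (Int.natAbs_ne_zero.2 hD0)).le

omit hns in
/-- The order of the target. -/
theorem card_target : Nat.card (Target D) =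
    if D % 4 = 1 ∨ D % 16 = 4 then 2 ^ (oddPrimes D).card
    else if D % 32 = 0 then 2 ^ ((oddPrimes D).card + 2)
    else 2 ^ ((oddPrimes D).card + 1) := by
  have hodd : ∀ c : ZMod 8, (Finset.univ.filter fun u : (ZMod 8)ˣ =>
      ∃ x y : ZMod 8, x ^ 2 + 1 * x * y + c * y ^ 2 = u).card = 4 := by decide +kernel
  have heven : ∀ c : ZMod 8, (Finset.univ.filter fun u : (ZMod 8)ˣ =>
      ∃ x y : ZMod 8, x ^ 2 + 0 * x * y + c * y ^ 2 = u).card =
        if c.val % 4 = 3 then 4 else if c.val = 0 then 1 else 2 := by decide +kernel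
  have hidx := Subgroup.card_mul_index (values8 ((D % 4 : ℤ) : ZMod 8) ((-(D / 4) : ℤ) : ZMod 8))
  have hcard : ∀ b c : ZMod 8, Nat.card (values8 b c) = (Finset.univ.filter fun u : (ZMod 8)ˣ =>
      ∃ x y : ZMod 8, x ^ 2 + b * x * y + c * y ^ 2 = u).card := fun b c =>
    Nat.subtype_card _ fun u => by simp only [Finset.mem_filter, Finset.mem_univ, true_and]; rfl
  rw [hcard, Nat.card_eq_fintype_card (α := (ZMod 8)ˣ),
    show Fintype.card (ZMod 8)ˣ = 4 by decide +kernel] at hidx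
  have hval : (((-(D / 4) : ℤ) : ZMod 8).val : ℤ) = (-(D / 4)) % 8 := ZMod.val_intCast _
  rw [Target, Nat.card_prod, Nat.card_fun, Nat.card_eq_fintype_card (α := ℤˣ),
    Fintype.card_units_int, Nat.card_eq_finsetCard, ← Subgroup.index_eq_card]
  rcases hD4 with e | e
  · rw [e, Int.cast_zero, heven] at hidx
    rw [e, Int.cast_zero]
    split_ifs at hidx with h1 h2
    · rw [if_pos (Or.inr (by omega)), show Subgroup.index _ = 1 by omega, mul_one]
    · rw [if_neg (by omega), if_pos (by omega), show Subgroup.index _ = 4 by omega, pow_add]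
      norm_num
    · rw [if_neg (by omega), if_neg (by omega), show Subgroup.index _ = 2 by omega, pow_succ]
  · rw [e, Int.cast_one, hodd] at hidx
    rw [if_pos (Or.inl e), e, Int.cast_one, show Subgroup.index _ = 1 by omega, mul_one]

omit hns hD4 in
/-- Every combination of the characters occurs. -/
theorem chars_surjective (hD0 : D ≠ 0) : Function.Surjective (chars D) := by
  classical
  rintro ⟨ε, q⟩
  obtain ⟨w, rfl⟩ := QuotientGroup.mk'_surjective _ q
  have : NeZero (8 * D.natAbs) := ⟨mul_ne_zero (by norm_num) (Int.natAbs_ne_zero.2 hD0)⟩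
  have hch : ∀ p : {p // p ∈ oddPrimes D}, ∃ a : ℤ, ¬(p.1 : ℤ) ∣ a ∧
      (IsSquare (a : ZMod p.1) ↔ ε p = 1) := fun p => by
    have : Fact p.1.Prime := ⟨prime_of_mem p.2⟩
    rcases Int.units_eq_one_or (ε p) with e | e
    · refine ⟨1, ?_, ?_⟩
      · rw [← Int.natAbs_dvd_natAbs]
        simpa using (prime_of_mem p.2).ne_one
      · simp [e]
    · obtain ⟨a, ha⟩ := FiniteField.exists_nonsquare (F := ZMod p.1)
        (by rw [ZMod.ringChar_zmod_n]; exact Finset.ne_of_mem_erase p.2)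
      obtain ⟨a, rfl⟩ := ZMod.intCast_surjective a
      exact ⟨a, fun h => ha (by rw [(ZMod.intCast_zmod_eq_zero_iff_dvd _ _).2 h]; exact
        IsSquare.zero), by simp [e, ha]⟩
  choose a ha hsq using hch
  obtain ⟨x, hx⟩ := GaussDuplication.exists_crt
    (fun l => if h : l ∈ oddPrimes D then a ⟨l, h⟩ else ((w : ZMod 8).val : ℤ)) 3
    (insert 2 D.natAbs.primeFactors) fun l hl => by
      rcases Finset.mem_insert.1 hl with rfl | hl
      exacts [Nat.prime_two, Nat.prime_of_mem_primeFactors hl]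
  have h8 : (x : ZMod 8) = (w : ZMod 8) := by
    have h := hx 2 (Finset.mem_insert_self _ _)
    rw [dif_neg (show ¬(2 ∈ oddPrimes D) from fun h => Finset.ne_of_mem_erase h rfl)] at h
    rw [← ZMod.natCast_zmod_val (w : ZMod 8), ← Int.cast_natCast (R := ZMod 8),
      ZMod.intCast_eq_intCast_iff_dvd_sub, ← dvd_neg, neg_sub]
    exact_mod_cast h
  have hcop : IsCoprime x ((8 * D.natAbs : ℕ) : ℤ) := by
    rw [Int.isCoprime_iff_nat_coprime, Int.natAbs_natCast]
    refine Nat.coprime_of_dvd fun l hl h1 h2 => ?_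
    rw [← Int.natCast_dvd] at h1
    rcases eq_or_ne l 2 with rfl | hl2
    · have hw : IsUnit (x : ZMod 8) := h8 ▸ w.isUnit
      rw [ZMod.coe_int_isUnit_iff_isCoprime] at hw
      exact Int.prime_two.not_isUnit (hw.isUnit_of_dvd' ⟨4, by norm_num⟩ h1)
    · have hlS : l ∈ D.natAbs.primeFactors := Nat.mem_primeFactors.2 ⟨hl,
        (hl.dvd_mul.1 h2).resolve_left fun h => hl2 ((Nat.prime_dvd_prime_iff_eq hl
          Nat.prime_two).1 (hl.dvd_of_dvd_pow (n := 3) h)), Int.natAbs_ne_zero.2 hD0⟩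
      have hlo : l ∈ oddPrimes D := Finset.mem_erase.2 ⟨hl2, hlS⟩
      have h := (dvd_pow_self (l : ℤ) three_ne_zero).trans (hx l (Finset.mem_insert_of_mem hlS))
      rw [dif_pos hlo] at h
      exact ha ⟨l, hlo⟩ ((dvd_sub_right h1).1 h)
  obtain ⟨u, hu⟩ := (ZMod.coe_int_isUnit_iff_isCoprime x (8 * D.natAbs)).2 hcop.symm
  refine ⟨u, Prod.ext (funext fun p => ?_) ?_⟩
  · have h := (dvd_pow_self (p.1 : ℤ) three_ne_zero).trans
      (hx p.1 (Finset.mem_insert_of_mem (Finset.mem_of_mem_erase p.2)))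
    rw [dif_pos p.2] at h
    have heq : charAt p u = 1 ↔ ε p = 1 := by
      rw [charAt_eq_one_iff p hu, ← hsq p, show (x : ZMod p.1) = (a p : ZMod p.1) by
        rw [ZMod.intCast_eq_intCast_iff_dvd_sub, ← dvd_neg, neg_sub]; exact h]
    show charAt p u = ε p
    rcases Int.units_eq_one_or (charAt p u) with e | e <;>
      rcases Int.units_eq_one_or (ε p) with e' | e' <;> rw [e, e'] <;> simp [e, e'] at heq
  · show QuotientGroup.mk' _ (ZMod.unitsMap _ u) = _
    congr 1
    refine Units.ext ?_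
    rw [ZMod.unitsMap_val, hu, ZMod.cast_intCast (Dvd.intro _ rfl)]
    exact h8

end FA.GenusTheory
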